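import Fermat.Agent.Robin.Upper
import Fermat.Agent.Nicolas.Main

/-!
# Failures of Robin's inequality without the Riemann hypothesis

For `n = lcm (1, …, N)`, `log (σ n / n) ≥ -∑_{p ≤ N} log (1 - 1/p) - O (1/√N)` and `log n = ψ N`.
If Robin's inequality held for large `n`, then `nic x ≥ -O (1/√x)`, so `tailInt x ≥ -O (1/√x)`,
which is the Riemann hypothesis.
-/

set_option autoImplicit false

noncomputable section

open Filter Finset Real
open FA.ErdosKac (primesUpTo mem_primesUpTo)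
open FA.Nicolas (tailInt primeSum nic)
open scoped Topology Chebyshev

namespace FA.Robin

theorem riemannHypothesis_of_nic_ge {C : ℝ} (h : ∀ᶠ x in atTop, -(C / √x) ≤ nic x) :
    RiemannHypothesis := by
  obtain ⟨X, hX⟩ := eventually_atTop.1 (h.and FA.Nicolas.eventually_nic_le)
  refine FA.Nicolas.riemannHypothesis_of_bound (A := max X 2) (C := C) (e := -1) (le_max_right _ _)
    (by norm_num) fun t ht => ?_
  have htX : X ≤ t := (le_max_left X 2).trans ht.out.le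
  have ht2 : 2 ≤ t := (le_max_right X 2).trans ht.out.le
  obtain ⟨h1, h2⟩ := hX t htX
  have h3 : 0 ≤ (ψ t - θ t) / (t * log t) := div_nonneg (sub_nonneg.2 (Chebyshev.theta_le_psi t))
    (mul_nonneg (by linarith) (log_nonneg (by linarith)))
  have e : C * t ^ (-(1 / 2) : ℝ) = C / √t := by
    rw [rpow_neg (by linarith), ← sqrt_eq_rpow, div_eq_mul_inv]
  linarith

theorem sum_inv_pow_log_le {x : ℝ} (hx : 4 ≤ x) :
    ∑ p ∈ primesUpTo ⌊x⌋₊, ((p : ℝ)⁻¹) ^ (Nat.log p ⌊x⌋₊ + 1) ≤ 3 / √x := by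
  have hx0 : 0 < x := by linarith
  have hs := sqrt_pos.2 hx0
  have hs2 : 2 ≤ √x := by rw [le_sqrt two_pos.le hx0.le]; linarith
  have hsx : √x ≤ x := Real.sqrt_le_iff.2 ⟨hx0.le, by nlinarith⟩
  rw [← sum_split hs.le hsx, show 3 / √x = 1 / √x + 2 / √x by ring]
  have hpr : ∀ p ∈ primesUpTo ⌊x⌋₊, p.Prime := fun p hp => (mem_primesUpTo.1 hp).1
  refine add_le_add ?_ ?_
  · calc ∑ p ∈ primesUpTo ⌊√x⌋₊, ((p : ℝ)⁻¹) ^ (Nat.log p ⌊x⌋₊ + 1)
        ≤ ∑ p ∈ primesUpTo ⌊√x⌋₊, 1 / x := sum_le_sum fun p hp => by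
          rw [inv_pow, one_div]
          refine inv_anti₀ hx0 ((Nat.lt_floor_add_one x).le.trans ?_)
          exact_mod_cast Nat.lt_pow_succ_log_self (mem_primesUpTo.1 hp).1.one_lt ⌊x⌋₊
      _ = #(primesUpTo ⌊√x⌋₊) * (1 / x) := by rw [sum_const, nsmul_eq_mul]
      _ ≤ √x * (1 / x) := by
          refine mul_le_mul_of_nonneg_right ?_ (by positivity)
          refine le_trans (Nat.cast_le.2 ?_) (Nat.floor_le hs.le)
          exact (card_filter_le _ _).trans (by simp)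
      _ = 1 / √x := by
          field_simp
          rw [sq_sqrt hx0.le]
  · have hm0 : ⌊√x⌋₊ ≠ 0 := (Nat.floor_pos.2 (by linarith)).ne'
    calc ∑ p ∈ (primesUpTo ⌊x⌋₊).filter (fun p : ℕ => ¬(p : ℝ) ≤ √x),
          ((p : ℝ)⁻¹) ^ (Nat.log p ⌊x⌋₊ + 1)
        ≤ ∑ p ∈ Ioc ⌊√x⌋₊ ⌊x⌋₊, ((p : ℝ) ^ 2)⁻¹ := by
          refine (sum_le_sum fun p hp => ?_).trans (sum_le_sum_of_subset_of_nonneg
            (fun p hp => ?_) fun p _ _ => by positivity)
          · obtain ⟨h1, -⟩ := mem_filter.1 hp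
            rw [inv_pow]
            refine inv_anti₀ (pow_pos (Nat.cast_pos.2 (hpr p h1).pos) 2)
              (pow_le_pow_right₀ (Nat.one_le_cast.2 (hpr p h1).one_le) ?_)
            have := Nat.log_pos (hpr p h1).one_lt (mem_primesUpTo.1 h1).2
            omega
          · obtain ⟨h1, h2⟩ := mem_filter.1 hp
            exact mem_Ioc.2 ⟨(Nat.floor_lt hs.le).2 (not_le.1 h2), (mem_primesUpTo.1 h1).2⟩
      _ ≤ (⌊√x⌋₊ : ℝ)⁻¹ - (⌊x⌋₊ : ℝ)⁻¹ := sum_Ioc_inv_sq_le_sub hm0 (Nat.floor_mono hsx)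
      _ ≤ 2 / √x := by
          have h5 : (0 : ℝ) ≤ (⌊x⌋₊ : ℝ)⁻¹ := by positivity
          have h6 : (⌊√x⌋₊ : ℝ)⁻¹ ≤ 2 / √x := by
            rw [← one_div, div_le_div_iff₀ (Nat.cast_pos.2 (Nat.pos_of_ne_zero hm0)) hs]
            linarith [Nat.lt_floor_add_one √x]
          linarith

theorem primeSum_sub_le_log_sigma {x : ℝ} (hx : 4 ≤ x) :
    primeSum x - 6 / √x ≤
      log ((∑ d ∈ (Nat.lcmUpto ⌊x⌋₊).divisors, (d : ℝ)) / Nat.lcmUpto ⌊x⌋₊) := by
  obtain ⟨N, hN⟩ : ∃ N, N = ⌊x⌋₊ := ⟨_, rfl⟩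
  have hsum := sum_inv_pow_log_le hx
  rw [← hN] at hsum ⊢
  have hP : (Nat.lcmUpto N).primeFactors = primesUpTo N := by
    rw [Nat.primeFactors_lcmUpto]
    ext p
    simp [Nat.mem_primesLE, mem_primesUpTo, and_comm]
  have hpr : ∀ p ∈ primesUpTo N, p.Prime := fun p hp => (mem_primesUpTo.1 hp).1
  have hratio : (∑ d ∈ (Nat.lcmUpto N).divisors, (d : ℝ)) / Nat.lcmUpto N =
      ∏ p ∈ primesUpTo N,
        ((∑ i ∈ range (Nat.log p N + 1), (p : ℝ) ^ i) / (p : ℝ) ^ Nat.log p N) := by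
    rw [prod_div_distrib, ← Nat.cast_sum, Nat.sum_divisors (Nat.lcmUpto_ne_zero N), hP]
    congr 1
    · push_cast
      exact prod_congr rfl fun p hp => by rw [Nat.factorization_lcmUpto N (hpr p hp)]
    · rw [Nat.lcmUpto_eq_prod_pow_log, Nat.cast_prod]
      refine prod_congr ?_ fun p _ => Nat.cast_pow _ _
      ext p
      simp [Nat.mem_primesLE, mem_primesUpTo, and_comm]
  rw [hratio, log_prod fun p hp => (div_pos (sum_pos
    (fun i _ => pow_pos (Nat.cast_pos.2 (hpr p hp).pos) _) ⟨0, by simp⟩)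
    (pow_pos (Nat.cast_pos.2 (hpr p hp).pos) _)).ne', primeSum, ← hN]
  have hterm : ∀ p ∈ primesUpTo N,
      -log (1 - (p : ℝ)⁻¹) - 2 * ((p : ℝ)⁻¹) ^ (Nat.log p N + 1) ≤ gFun p (Nat.log p N) := by
    intro p hp
    have hp1 : (1 : ℝ) < p := Nat.one_lt_cast.2 (hpr p hp).one_lt
    have hp0 : (0 : ℝ) < p := by linarith
    obtain ⟨t, ht⟩ : ∃ t, t = (p : ℝ)⁻¹ := ⟨_, rfl⟩
    obtain ⟨K, hK⟩ : ∃ K, K = Nat.log p N := ⟨_, rfl⟩
    rw [← ht, ← hK]
    have ht0 : 0 ≤ t := by rw [ht]; positivity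
    have ht1 : t ≤ 1 / 2 := by
      rw [ht, one_div]; exact inv_anti₀ two_pos (by exact_mod_cast (hpr p hp).two_le)
    have hq : t ^ (K + 1) ≤ 1 / 2 :=
      (pow_le_of_le_one ht0 (by linarith) (by omega)).trans ht1
    have e : (∑ i ∈ range (K + 1), (p : ℝ) ^ i) / (p : ℝ) ^ K = (1 - t ^ (K + 1)) / (1 - t) := by
      rw [div_eq_div_iff (by positivity) (by linarith : 1 - t ≠ 0)]
      have h := geom_sum_mul (p : ℝ) (K + 1)
      have hpt : (p : ℝ) * t = 1 := by rw [ht]; field_simp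
      have hpw : (p : ℝ) ^ (K + 1) * t ^ (K + 1) = 1 := by rw [← mul_pow, hpt, one_pow]
      refine mul_left_cancel₀ hp0.ne' ?_
      calc (p : ℝ) * ((∑ i ∈ range (K + 1), (p : ℝ) ^ i) * (1 - t))
          = (∑ i ∈ range (K + 1), (p : ℝ) ^ i) * ((p : ℝ) - p * t) := by ring
        _ = (p : ℝ) ^ (K + 1) - (p : ℝ) ^ (K + 1) * t ^ (K + 1) := by rw [hpt, h, hpw]
        _ = _ := by ring
    rw [gFun, e, log_div (by linarith) (by linarith)]
    have h1 := one_sub_inv_le_log_of_pos (show 0 < 1 - t ^ (K + 1) by linarith)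
    have h2 : (1 - t ^ (K + 1))⁻¹ ≤ 1 + 2 * t ^ (K + 1) := by
      rw [inv_le_iff_one_le_mul₀ (by linarith)]
      nlinarith [pow_nonneg ht0 (K + 1)]
    linarith
  refine le_trans ?_ (sum_le_sum hterm)
  rw [sum_sub_distrib, ← mul_sum, show (6 : ℝ) / √x = 2 * (3 / √x) by ring]
  linarith

theorem eventually_robin_imp {K : ℝ} (hK : 0 ≤ K) :
    (∀ᶠ n : ℕ in atTop, (∑ d ∈ n.divisors, (d : ℝ)) ≤
      Real.exp eulerMascheroniConstant * n * (log (log n) * (1 + K / log n))) →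
    ∃ C : ℝ, ∀ᶠ x in atTop, -(C / √x) ≤ nic x := by
  intro h
  obtain ⟨C, hC⟩ := Chebyshev.psi_sub_theta_le_mul_sqrt
  refine ⟨2 * C + 6 + 2 * K, ?_⟩
  have hn : Tendsto (fun x : ℝ => Nat.lcmUpto ⌊x⌋₊) atTop atTop := by
    refine tendsto_atTop_mono' _ ?_ tendsto_nat_floor_atTop
    filter_upwards [eventually_ge_atTop (1 : ℝ)] with x hx
    refine Nat.le_of_dvd (Nat.lcmUpto_pos _) (Finset.dvd_lcm (f := id) ?_)
    exact Finset.mem_Icc.2 ⟨Nat.floor_pos.2 hx, le_rfl⟩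
  filter_upwards [hn.eventually h, eventually_theta_near (show (0 : ℝ) < 1 / 2 by norm_num),
    eventually_ge_atTop (16 : ℝ)] with x hx hθ hx16
  have hx0 : 0 < x := by linarith
  have hs := sqrt_pos.2 hx0
  have hθ' := abs_le.1 hθ
  have hθ1 : x / 2 ≤ θ x := by linarith
  have hθψ := Chebyshev.theta_le_psi x
  have hlθ : 1 ≤ log (θ x) := by
    rw [le_log_iff_exp_le (by linarith)]
    linarith [exp_one_lt_d9]
  have hlψ : 1 ≤ log (ψ x) := hlθ.trans (log_le_log (by linarith) hθψ)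
  have hlogn : log ((Nat.lcmUpto ⌊x⌋₊ : ℕ) : ℝ) = ψ x := by
    rw [← Chebyshev.psi_eq_log_lcmUpto]
    simp [Chebyshev.psi, Nat.floor_natCast]
  have hn0 : (0 : ℝ) < (Nat.lcmUpto ⌊x⌋₊ : ℕ) := Nat.cast_pos.2 (Nat.lcmUpto_pos _)
  rw [hlogn] at hx
  have hσ : log ((∑ d ∈ (Nat.lcmUpto ⌊x⌋₊).divisors, (d : ℝ)) / Nat.lcmUpto ⌊x⌋₊) ≤
      eulerMascheroniConstant + log (log (ψ x)) + 2 * K / √x := by
    have hψ0 : 0 < ψ x := by linarith
    have hK1 : 0 < 1 + K / ψ x := by positivity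
    have hK2 : log (1 + K / ψ x) ≤ 2 * K / √x := by
      refine (log_le_sub_one_of_pos hK1).trans ?_
      rw [add_sub_cancel_left, div_le_div_iff₀ hψ0 hs]
      have : √x ≤ x := Real.sqrt_le_iff.2 ⟨hx0.le, by nlinarith⟩
      nlinarith [mul_le_mul_of_nonneg_left (show √x ≤ 2 * ψ x by linarith) hK]
    refine (log_le_log (div_pos (sum_pos (fun d hd => Nat.cast_pos.2 (Nat.pos_of_mem_divisors hd))
      ⟨1, Nat.one_mem_divisors.2 (Nat.lcmUpto_ne_zero _)⟩) hn0)
      (show _ ≤ Real.exp eulerMascheroniConstant * (log (ψ x) * (1 + K / ψ x)) from ?_)).trans ?_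
    · rw [div_le_iff₀ hn0]
      linarith
    · rw [log_mul (exp_pos _).ne' (mul_pos (by linarith) hK1).ne', log_exp,
        log_mul (by linarith) hK1.ne']
      linarith
  have hLL : log (log (ψ x)) - log (log (θ x)) ≤ 2 * C / √x := by
    rw [← log_div (by linarith) (by linarith)]
    refine (log_le_sub_one_of_pos (div_pos (by linarith) (by linarith))).trans ?_
    rw [div_sub_one (by linarith), ← log_div (by linarith) (by linarith)]
    refine (div_le_self (log_nonneg ((one_le_div (by linarith)).2 hθψ)) hlθ).trans ?_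
    refine (log_le_sub_one_of_pos (div_pos (by linarith) (by linarith))).trans ?_
    rw [div_sub_one (by linarith)]
    refine (div_le_div_of_nonneg_left (by linarith) (by linarith) hθ1).trans ?_
    rw [div_le_div_iff₀ (by linarith) hs]
    calc (ψ x - θ x) * √x ≤ C * √x * √x := mul_le_mul_of_nonneg_right (hC x) hs.le
      _ = C * x := by rw [mul_assoc, mul_self_sqrt hx0.le]
      _ = 2 * C * (x / 2) := by ring
  have hlow := primeSum_sub_le_log_sigma (show 4 ≤ x by linarith)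
  rw [nic, add_div, add_div]
  linarith

/-- **Robin's criterion, converse part.** -/
theorem riemannHypothesis_of_robin (h : ∀ᶠ n : ℕ in atTop, (∑ d ∈ n.divisors, (d : ℝ)) ≤
      Real.exp eulerMascheroniConstant * n * log (log n)) : RiemannHypothesis := by
  obtain ⟨C, hC⟩ := eventually_robin_imp le_rfl (by simpa using h)
  exact riemannHypothesis_of_nic_ge hC

/-- Robin's inequality up to a factor `1 + O (1 / log n)` already gives the hypothesis. -/
theorem riemannHypothesis_of_robin_slack {K : ℝ} (hK : 0 ≤ K)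
    (h : ∀ᶠ n : ℕ in atTop, (∑ d ∈ n.divisors, (d : ℝ)) ≤
      Real.exp eulerMascheroniConstant * n * (log (log n) * (1 + K / log n))) :
    RiemannHypothesis := by
  obtain ⟨C, hC⟩ := eventually_robin_imp hK h
  exact riemannHypothesis_of_nic_ge hC

end FA.Robin
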