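import Fermat.Agent.Nicolas.Basic

/-!
# Sums over primes for Robin's criterion

`∑_{y < p ≤ (11/10)^50 y} log p / p² ≥ (89/100) / y` for large `y`, and small sums over primes.
-/

set_option autoImplicit false

noncomputable section

open Filter Finset Real
open FA.ErdosKac (primesUpTo mem_primesUpTo)
open scoped Topology Chebyshev

namespace FA.Robin

theorem theta_eq_sum (x : ℝ) : θ x = ∑ p ∈ primesUpTo ⌊x⌋₊, log p := by
  rw [Chebyshev.theta]
  refine Finset.sum_congr ?_ fun _ _ => rfl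
  ext p
  simp only [mem_primesUpTo, Finset.mem_filter, Finset.mem_Ioc]
  exact ⟨fun h => ⟨h.2, h.1.2⟩, fun h => ⟨⟨h.1.pos, h.2⟩, h.1⟩⟩

theorem filter_le_eq {a b : ℝ} (ha : 0 ≤ a) (hab : a ≤ b) :
    (primesUpTo ⌊b⌋₊).filter (fun p : ℕ => (p : ℝ) ≤ a) = primesUpTo ⌊a⌋₊ := by
  ext p
  simp only [mem_filter, mem_primesUpTo, ← Nat.le_floor_iff ha]
  exact ⟨fun h => ⟨h.1.1, h.2⟩, fun h => ⟨⟨h.1, h.2.trans (Nat.floor_mono hab)⟩, h.2⟩⟩

theorem sum_split {a b : ℝ} (ha : 0 ≤ a) (hab : a ≤ b) (F : ℕ → ℝ) :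
    ∑ p ∈ primesUpTo ⌊a⌋₊, F p +
        ∑ p ∈ (primesUpTo ⌊b⌋₊).filter (fun p : ℕ => ¬(p : ℝ) ≤ a), F p =
      ∑ p ∈ primesUpTo ⌊b⌋₊, F p := by
  rw [← filter_le_eq ha hab]
  exact sum_filter_add_sum_filter_not _ _ _

theorem sum_log_between {a b : ℝ} (ha : 0 ≤ a) (hab : a ≤ b) :
    ∑ p ∈ (primesUpTo ⌊b⌋₊).filter (fun p : ℕ => ¬(p : ℝ) ≤ a), log (p : ℝ) = θ b - θ a := by
  rw [theta_eq_sum, theta_eq_sum, ← sum_split ha hab fun p => log (p : ℝ)]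
  ring

theorem eventually_theta_near {δ : ℝ} (hδ : 0 < δ) :
    ∀ᶠ x in atTop, |θ x - x| ≤ δ * x := by
  filter_upwards [Metric.tendsto_nhds.1 FA.Nicolas.tendsto_theta_sub_div δ hδ,
    eventually_gt_atTop (0 : ℝ)] with x hx hx0
  rw [dist_eq_norm, sub_zero, norm_eq_abs, abs_div, abs_of_pos hx0, div_lt_iff₀ hx0] at hx
  exact hx.le

theorem block_ge {y : ℝ} (hy : 0 < y)
    (hθ : ∀ z, y ≤ z → |θ z - z| ≤ 1 / 2100 * z) : ∀ j : ℕ,
    9 / 10 / y * (1 - (10 / 11) ^ j) ≤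
      ∑ p ∈ (primesUpTo ⌊(11 / 10) ^ j * y⌋₊).filter (fun p : ℕ => ¬(p : ℝ) ≤ y),
        log (p : ℝ) / (p : ℝ) ^ 2 := by
  intro j
  induction j with
  | zero =>
    rw [pow_zero, sub_self, mul_zero]
    exact sum_nonneg fun p hp => div_nonneg (log_natCast_nonneg p) (sq_nonneg _)
  | succ j ih =>
    obtain ⟨z, hz⟩ : ∃ z, z = (11 / 10 : ℝ) ^ j * y := ⟨_, rfl⟩
    have hyz : y ≤ z := hz ▸ le_mul_of_one_le_left hy.le (one_le_pow₀ (by norm_num))
    have hz0 : 0 < z := hy.trans_le hyz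
    have hz' : (11 / 10 : ℝ) ^ (j + 1) * y = 11 / 10 * z := by rw [hz, pow_succ]; ring
    rw [← hz] at ih
    rw [hz']
    have hsplit := sum_split hz0.le (show z ≤ 11 / 10 * z by linarith)
      (fun p => if ¬(p : ℝ) ≤ y then log (p : ℝ) / (p : ℝ) ^ 2 else 0)
    simp only [← sum_filter, filter_filter] at hsplit
    rw [← hsplit]
    have hset : (primesUpTo ⌊11 / 10 * z⌋₊).filter
        (fun p : ℕ => ¬(p : ℝ) ≤ z ∧ ¬(p : ℝ) ≤ y) =
        (primesUpTo ⌊11 / 10 * z⌋₊).filter (fun p : ℕ => ¬(p : ℝ) ≤ z) :=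
      filter_congr fun p _ => ⟨fun h => h.1, fun h => ⟨h, fun h' => h (h'.trans hyz)⟩⟩
    rw [hset]
    have hstep : (θ (11 / 10 * z) - θ z) / (11 / 10 * z) ^ 2 ≤
        ∑ p ∈ (primesUpTo ⌊11 / 10 * z⌋₊).filter (fun p : ℕ => ¬(p : ℝ) ≤ z),
          log (p : ℝ) / (p : ℝ) ^ 2 := by
      rw [← sum_log_between hz0.le (by linarith), sum_div]
      refine sum_le_sum fun p hp => ?_
      obtain ⟨hp1, hp2⟩ := mem_filter.1 hp
      have hpr := (mem_primesUpTo.1 hp1).1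
      refine div_le_div_of_nonneg_left (log_natCast_nonneg p)
        (pow_pos (Nat.cast_pos.2 hpr.pos) 2) (pow_le_pow_left₀ (Nat.cast_nonneg p) ?_ 2)
      exact (Nat.cast_le.2 (mem_primesUpTo.1 hp1).2).trans (Nat.floor_le (by linarith))
    have h1 := abs_le.1 (hθ z hyz)
    have h2 := abs_le.1 (hθ (11 / 10 * z) (by linarith))
    have h3 : (99 / 1000 * z) / (11 / 10 * z) ^ 2 ≤ (θ (11 / 10 * z) - θ z) / (11 / 10 * z) ^ 2 :=
      div_le_div_of_nonneg_right (by linarith [h1.1, h1.2, h2.1, h2.2]) (sq_nonneg _)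
    have h4 : 9 / 10 / y * (1 - (10 / 11) ^ (j + 1)) =
        9 / 10 / y * (1 - (10 / 11) ^ j) + (99 / 1000 * z) / (11 / 10 * z) ^ 2 := by
      rw [show ((10 : ℝ) / 11) ^ (j + 1) = 10 / 11 * (10 / 11) ^ j by ring,
        show ((10 : ℝ) / 11) ^ j = ((11 / 10) ^ j)⁻¹ by rw [← inv_pow]; norm_num, hz]
      field_simp
      ring
    linarith

theorem eventually_block : ∀ᶠ y in atTop, 89 / 100 / y ≤
    ∑ p ∈ (primesUpTo ⌊(11 / 10) ^ 50 * y⌋₊).filter (fun p : ℕ => ¬(p : ℝ) ≤ y),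
      log (p : ℝ) / (p : ℝ) ^ 2 := by
  obtain ⟨X, hX⟩ := eventually_atTop.1 (eventually_theta_near (show (0 : ℝ) < 1 / 2100 by norm_num))
  filter_upwards [eventually_ge_atTop X, eventually_gt_atTop (0 : ℝ)] with y hy hy0
  refine le_trans ?_ (block_ge hy0 (fun z hz => hX z (hy.trans hz)) 50)
  rw [show (89 : ℝ) / 100 / y = 9 / 10 / y * (89 / 90) by ring]
  exact mul_le_mul_of_nonneg_left (by norm_num) (by positivity)

/-- `2 / x` for `p ≤ w`, and `2 / p³` beyond. -/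
def smallTerm (x w : ℝ) (p : ℕ) : ℝ := if (p : ℝ) ≤ w then 2 / x else 2 / (p : ℝ) ^ 3

theorem sum_smallTerm_le {x w : ℝ} (hx : 0 < x) (hw : 2 ≤ w) (hwx : w ≤ x) :
    ∑ p ∈ primesUpTo ⌊x⌋₊, smallTerm x w p ≤ 2 * w / x + 4 / w ^ 2 := by
  rw [← sum_split (by linarith : 0 ≤ w) hwx]
  refine add_le_add ?_ ?_
  · calc ∑ p ∈ primesUpTo ⌊w⌋₊, smallTerm x w p
        = ∑ p ∈ primesUpTo ⌊w⌋₊, 2 / x := sum_congr rfl fun p hp => if_pos
            ((Nat.cast_le.2 (mem_primesUpTo.1 hp).2).trans (Nat.floor_le (by linarith)))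
      _ = #(primesUpTo ⌊w⌋₊) * (2 / x) := by rw [sum_const, nsmul_eq_mul]
      _ ≤ w * (2 / x) := by
          refine mul_le_mul_of_nonneg_right ?_ (by positivity)
          refine le_trans (Nat.cast_le.2 ?_) (Nat.floor_le (show 0 ≤ w by linarith))
          exact (card_filter_le _ _).trans (by simp)
      _ = _ := by ring
  · have hm0 : ⌊w⌋₊ ≠ 0 := (Nat.floor_pos.2 (by linarith)).ne'
    have hmN : ⌊w⌋₊ ≤ ⌊x⌋₊ := Nat.floor_mono hwx
    calc ∑ p ∈ (primesUpTo ⌊x⌋₊).filter (fun p : ℕ => ¬(p : ℝ) ≤ w), smallTerm x w p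
        ≤ ∑ p ∈ Ioc ⌊w⌋₊ ⌊x⌋₊, 2 / w * ((p : ℝ) ^ 2)⁻¹ := by
          refine (sum_le_sum fun p hp => ?_).trans (sum_le_sum_of_subset_of_nonneg
            (fun p hp => ?_) fun p _ _ => by positivity)
          · obtain ⟨h1, h2⟩ := mem_filter.1 hp
            rw [smallTerm, if_neg h2]
            rw [not_le] at h2
            rw [div_mul_eq_mul_div, ← div_eq_mul_inv, div_div,
              show (p : ℝ) ^ 3 = (p : ℝ) ^ 2 * p by ring]
            exact div_le_div_of_nonneg_left two_pos.le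
              (mul_pos (pow_pos (by linarith) 2) (by linarith))
              (mul_le_mul_of_nonneg_left h2.le (sq_nonneg _))
          · obtain ⟨h1, h2⟩ := mem_filter.1 hp
            exact mem_Ioc.2 ⟨not_le.1 fun h =>
              h2 ((Nat.cast_le.2 h).trans (Nat.floor_le (by linarith))),
              (mem_primesUpTo.1 h1).2⟩
      _ = 2 / w * ∑ p ∈ Ioc ⌊w⌋₊ ⌊x⌋₊, ((p : ℝ) ^ 2)⁻¹ := by rw [mul_sum]
      _ ≤ 2 / w * (2 / w) := by
          refine mul_le_mul_of_nonneg_left ((sum_Ioc_inv_sq_le_sub hm0 hmN).trans ?_)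
            (by positivity)
          have h5 : (0 : ℝ) ≤ (⌊x⌋₊ : ℝ)⁻¹ := by positivity
          have h6 : (⌊w⌋₊ : ℝ)⁻¹ ≤ 2 / w := by
            rw [← one_div, div_le_div_iff₀ (Nat.cast_pos.2 (Nat.pos_of_ne_zero hm0))
              (by linarith)]
            linarith [Nat.lt_floor_add_one w]
          linarith
      _ = _ := by ring

end FA.Robin
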