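import Fermat.Agent.Robin.PrimeSums
import Fermat.Agent.Nicolas.Riemann

/-!
# Robin's inequality for large `n` under the Riemann hypothesis

With `x = log n` and `ε = 1 / (x log x)` every prime `p` contributes to `log (σ n / n) - ε log n`
at most `B p = -log (1 - 1/p) - ε log p - min (1/p², ε log p) + e p` for `p ≤ x` and `≤ 0`
beyond, where `e p = 1/p²` on `(x/2, x]`. So `log (σ n / n) - γ - log log x` is at most
`-J + (ψ - θ)/(x log x) + ∑ (T p - min (1/p², ε log p) + e p)`, which is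
`≤ (21/50 + 51/50 - 3/2) / (√x log x) < 0`.
-/

set_option autoImplicit false

noncomputable section

open Filter Finset Real
open FA.ErdosKac (primesUpTo mem_primesUpTo)
open FA.Nicolas (tailInt primeSum powSum)
open scoped Topology Chebyshev

namespace FA.Robin

/-- `log ((1 + p + ⋯ + p ^ a) / p ^ a)`. -/
def gFun (p a : ℕ) : ℝ := log ((∑ i ∈ range (a + 1), (p : ℝ) ^ i) / (p : ℝ) ^ a)

/-- `log p / (x log x)`. -/
def weight (x : ℝ) (p : ℕ) : ℝ := log (p : ℝ) / (x * log x)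

/-- `min (1/p²) (weight x p)`. -/
def saving (x : ℝ) (p : ℕ) : ℝ := min (((p : ℝ) ^ 2)⁻¹) (weight x p)

/-- `1/p²` for `p > x/2`. -/
def excess (x : ℝ) (p : ℕ) : ℝ := if x / 2 < p then ((p : ℝ) ^ 2)⁻¹ else 0

/-- The bound for the contribution of `p ≤ x`. -/
def contrib (x : ℝ) (p : ℕ) : ℝ :=
  -log (1 - (p : ℝ)⁻¹) - weight x p - saving x p + excess x p

/-- `-log (1 - 1/p)` less its terms `p ^ (-k) / k` with `p ^ k ≤ x`. -/
def tailTerm (x : ℝ) (p : ℕ) : ℝ :=
  -log (1 - (p : ℝ)⁻¹) - ∑ i ∈ range (Nat.log p ⌊x⌋₊), ((p : ℝ)⁻¹) ^ (i + 1) / (i + 1)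

theorem gFun_zero (p : ℕ) : gFun p 0 = 0 := by simp [gFun]

theorem gFun_le {p : ℕ} (hp : p.Prime) (a : ℕ) : gFun p a ≤ -log (1 - (p : ℝ)⁻¹) := by
  have hp1 : (1 : ℝ) < p := Nat.one_lt_cast.2 hp.one_lt
  have hp0 : (0 : ℝ) < p := by linarith
  have ht : 0 < 1 - (p : ℝ)⁻¹ := sub_pos.2 (inv_lt_one_of_one_lt₀ hp1)
  have hs : 0 < (∑ i ∈ range (a + 1), (p : ℝ) ^ i) / (p : ℝ) ^ a :=
    div_pos (sum_pos (fun i _ => by positivity) ⟨0, by simp⟩) (by positivity)
  rw [gFun, ← log_inv]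
  refine log_le_log hs ?_
  rw [← one_div, le_div_iff₀ ht, div_mul_eq_mul_div, div_le_one (by positivity)]
  have h := geom_sum_mul (p : ℝ) (a + 1)
  have e : (∑ i ∈ range (a + 1), (p : ℝ) ^ i) * (1 - (p : ℝ)⁻¹) =
      ((p : ℝ) ^ (a + 1) - 1) / p := by
    rw [← h]; field_simp
  rw [e, div_le_iff₀ hp0, ← pow_succ]
  linarith

theorem gFun_one_le {p : ℕ} (hp : p.Prime) :
    gFun p 1 ≤ -log (1 - (p : ℝ)⁻¹) - ((p : ℝ) ^ 2)⁻¹ ∧ gFun p 1 ≤ (p : ℝ)⁻¹ := by
  have hp1 : (1 : ℝ) < p := Nat.one_lt_cast.2 hp.one_lt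
  have hp0 : (0 : ℝ) < p := by linarith
  have ht : 0 < 1 - (p : ℝ)⁻¹ := sub_pos.2 (inv_lt_one_of_one_lt₀ hp1)
  have e : gFun p 1 = log (1 + (p : ℝ)⁻¹) := by
    rw [gFun]
    congr 1
    rw [sum_range_succ, sum_range_one, pow_zero, pow_one]
    field_simp
    ring
  rw [e]
  refine ⟨?_, ?_⟩
  · have h : log (1 + (p : ℝ)⁻¹) + log (1 - (p : ℝ)⁻¹) ≤ -((p : ℝ) ^ 2)⁻¹ := by
      rw [← log_mul (by positivity) ht.ne']
      refine (log_le_sub_one_of_pos (by positivity)).trans (le_of_eq ?_)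
      rw [← inv_pow]
      ring
    linarith
  · linarith [log_le_sub_one_of_pos (show 0 < 1 + (p : ℝ)⁻¹ by positivity)]

theorem contrib_le {x : ℝ} (hx : 16 ≤ x) {p : ℕ} (hp : p.Prime) (a : ℕ) :
    ((p : ℝ) ≤ x → gFun p a - a * weight x p ≤ contrib x p) ∧
      (x < p → gFun p a - a * weight x p ≤ 0) := by
  have hp2 : (2 : ℝ) ≤ p := by exact_mod_cast hp.two_le
  have hp0 : (0 : ℝ) < p := by linarith
  have hx0 : 0 < x := by linarith
  have hL : 0 < log x := log_pos (by linarith)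
  have hlp : 0 ≤ log (p : ℝ) := log_natCast_nonneg p
  have hw0 : 0 ≤ weight x p := div_nonneg hlp (by positivity)
  have he0 : 0 ≤ excess x p := by
    rw [excess]; split_ifs
    exacts [by positivity, le_rfl]
  have hg := gFun_le hp a
  obtain ⟨hg1, hg1'⟩ := gFun_one_le hp
  have ht : 0 < 1 - (p : ℝ)⁻¹ := sub_pos.2 (inv_lt_one_of_one_lt₀ (by linarith))
  have hlog : (p : ℝ)⁻¹ ≤ -log (1 - (p : ℝ)⁻¹) := by linarith [log_le_sub_one_of_pos ht]
  refine ⟨fun hpx => ?_, fun hpx => ?_⟩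
  · have hlpx : log (p : ℝ) ≤ log x := log_le_log hp0 hpx
    rcases a with _ | _ | a
    · rw [gFun_zero, Nat.cast_zero, zero_mul, sub_zero, contrib]
      have hs : saving x p ≤ ((p : ℝ) ^ 2)⁻¹ := min_le_left _ _
      have hw1 : weight x p ≤ (p : ℝ)⁻¹ := by
        rw [weight, ← one_div, div_le_div_iff₀ (by positivity) hp0, one_mul, mul_comm]
        exact mul_le_mul hpx hlpx hlp hx0.le
      rcases lt_or_ge (x / 2) (p : ℝ) with h | h
      · have : excess x p = ((p : ℝ) ^ 2)⁻¹ := by rw [excess, if_pos h]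
        linarith
      · have h1 : weight x p ≤ 1 / x := by
          rw [weight, div_le_div_iff₀ (by positivity) hx0, one_mul, mul_comm]
          exact mul_le_mul_of_nonneg_left hlpx hx0.le
        have h2 : 1 / x ≤ (p : ℝ)⁻¹ / 2 := by
          rw [inv_eq_one_div, div_div]
          exact one_div_le_one_div_of_le (by positivity) (by linarith)
        have h3 : ((p : ℝ) ^ 2)⁻¹ ≤ (p : ℝ)⁻¹ / 2 := by
          rw [inv_eq_one_div, inv_eq_one_div, div_div]
          exact one_div_le_one_div_of_le (by positivity) (by nlinarith)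
        linarith
    · rw [Nat.cast_one, one_mul, contrib]
      have hs : saving x p ≤ ((p : ℝ) ^ 2)⁻¹ := min_le_left _ _
      linarith
    · rw [contrib]
      have hs : saving x p ≤ weight x p := min_le_right _ _
      push_cast
      nlinarith [mul_nonneg (Nat.cast_nonneg a : (0 : ℝ) ≤ a) hw0]
  · have hlpx : log x ≤ log (p : ℝ) := log_le_log hx0 hpx.le
    rcases a with _ | _ | a
    · rw [gFun_zero, Nat.cast_zero, zero_mul, sub_zero]
    · rw [Nat.cast_one, one_mul, sub_nonpos]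
      refine hg1'.trans ?_
      rw [weight, ← one_div, div_le_div_iff₀ hp0 (by positivity), one_mul, mul_comm (log _)]
      exact mul_le_mul hpx.le hlpx hL.le hp0.le
    · have h1 : 1 / x ≤ weight x p := by
        rw [weight, div_le_div_iff₀ hx0 (by positivity), one_mul, mul_comm (log _)]
        exact mul_le_mul_of_nonneg_left hlpx hx0.le
      have h2 : -log (1 - (p : ℝ)⁻¹) ≤ 2 * (1 / x) := by
        have h := one_sub_inv_le_log_of_pos ht
        have e : (1 - (p : ℝ)⁻¹)⁻¹ - 1 = 1 / ((p : ℝ) - 1) := by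
          have : (p : ℝ) - 1 ≠ 0 := by linarith
          field_simp
          ring
        have h3 : 1 / ((p : ℝ) - 1) ≤ 2 * (1 / x) := by
          rw [mul_one_div, div_le_div_iff₀ (by linarith) hx0]
          linarith
        linarith
      push_cast
      nlinarith [mul_nonneg (Nat.cast_nonneg a : (0 : ℝ) ≤ a) hw0]

theorem log_sigma_le {n : ℕ} (hn : n ≠ 0) (hx : 16 ≤ log (n : ℝ)) :
    log ((∑ d ∈ n.divisors, (d : ℝ)) / n) ≤
      ∑ p ∈ primesUpTo ⌊log (n : ℝ)⌋₊, contrib (log n) p + 1 / log (log (n : ℝ)) := by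
  set x := log (n : ℝ) with hxd
  have hx0 : 0 < x := by linarith
  have hpr : ∀ p ∈ n.primeFactors, p.Prime := fun p hp => Nat.prime_of_mem_primeFactors hp
  have hsig : (∑ d ∈ n.divisors, (d : ℝ)) / n = ∏ p ∈ n.primeFactors,
      ((∑ i ∈ range (n.factorization p + 1), (p : ℝ) ^ i) / (p : ℝ) ^ n.factorization p) := by
    rw [prod_div_distrib, ← Nat.cast_sum, Nat.sum_divisors hn]
    congr 1
    · push_cast
      rfl
    · exact_mod_cast congrArg (Nat.cast : ℕ → ℝ) (Nat.prod_factorization_pow_eq_self hn).symm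
  have hlogn : x = ∑ p ∈ n.primeFactors, (n.factorization p : ℝ) * log (p : ℝ) := by
    have e : (n : ℝ) = ∏ p ∈ n.primeFactors, (p : ℝ) ^ n.factorization p := by
      exact_mod_cast congrArg (Nat.cast : ℕ → ℝ) (Nat.prod_factorization_pow_eq_self hn).symm
    rw [hxd]
    conv_lhs => rw [e]
    rw [log_prod fun p hp => pow_ne_zero _ (Nat.cast_ne_zero.2 (hpr p hp).ne_zero)]
    exact sum_congr rfl fun p _ => log_pow _ _
  have hone : ∑ p ∈ n.primeFactors, (n.factorization p : ℝ) * weight x p = 1 / log x := by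
    simp only [weight, ← mul_div_assoc, ← sum_div]
    rw [← hlogn]
    field_simp
  have hexp : log ((∑ d ∈ n.divisors, (d : ℝ)) / n) =
      ∑ p ∈ n.primeFactors, gFun p (n.factorization p) := by
    rw [hsig, log_prod fun p hp => (div_pos (sum_pos
      (fun i _ => pow_pos (Nat.cast_pos.2 (hpr p hp).pos) _) ⟨0, by simp⟩)
      (pow_pos (Nat.cast_pos.2 (hpr p hp).pos) _)).ne']
    rfl
  have hmain : ∑ p ∈ n.primeFactors,
      (gFun p (n.factorization p) - n.factorization p * weight x p) ≤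
        ∑ p ∈ primesUpTo ⌊x⌋₊, contrib x p := by
    rw [← sum_filter_add_sum_filter_not n.primeFactors (fun p : ℕ => (p : ℝ) ≤ x)]
    have h1 : ∑ p ∈ n.primeFactors.filter (fun p : ℕ => ¬(p : ℝ) ≤ x),
        (gFun p (n.factorization p) - n.factorization p * weight x p) ≤ 0 :=
      sum_nonpos fun p hp => (contrib_le hx (hpr p (mem_filter.1 hp).1) _).2
        (not_le.1 (mem_filter.1 hp).2)
    have h2 : ∑ p ∈ n.primeFactors.filter (fun p : ℕ => (p : ℝ) ≤ x),
        (gFun p (n.factorization p) - n.factorization p * weight x p) ≤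
          ∑ p ∈ primesUpTo ⌊x⌋₊, contrib x p := by
      refine (sum_le_sum fun p hp => (contrib_le hx (hpr p (mem_filter.1 hp).1) _).1
        (mem_filter.1 hp).2).trans
          (sum_le_sum_of_subset_of_nonneg (fun p hp => ?_) fun p hp _ => ?_)
      · exact mem_primesUpTo.2 ⟨hpr p (mem_filter.1 hp).1, Nat.le_floor (mem_filter.1 hp).2⟩
      · have h := (contrib_le hx (mem_primesUpTo.1 hp).1 0).1
          ((Nat.cast_le.2 (mem_primesUpTo.1 hp).2).trans (Nat.floor_le hx0.le))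
        simpa [gFun_zero] using h
    linarith
  rw [sum_sub_distrib, hone] at hmain
  rw [hexp]
  linarith

theorem tailTerm_bounds {x : ℝ} (hx : 4 ≤ x) {p : ℕ} (hp : p.Prime) (hpx : (p : ℝ) ≤ x) :
    (((p : ℝ) ^ 2 ≤ x → tailTerm x p ≤ 2 / x ∧ tailTerm x p ≤ 2 / (p : ℝ) ^ 3)) ∧
      (x < (p : ℝ) ^ 2 → tailTerm x p ≤ ((p : ℝ) ^ 2)⁻¹ / 2 + 2 / (p : ℝ) ^ 3) := by
  have hx0 : 0 < x := by linarith
  have hp0 : (0 : ℝ) < p := Nat.cast_pos.2 hp.pos
  obtain ⟨t, ht⟩ : ∃ t, t = (p : ℝ)⁻¹ := ⟨_, rfl⟩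
  have ht0 : 0 ≤ t := by rw [ht]; positivity
  have ht2 : t ≤ 1 / 2 := by
    rw [ht, one_div]; exact inv_anti₀ two_pos (by exact_mod_cast hp.two_le)
  obtain ⟨K, hK⟩ : ∃ K, K = Nat.log p ⌊x⌋₊ := ⟨_, rfl⟩
  have hgen : ∀ M : ℕ, -log (1 - t) - ∑ i ∈ range M, t ^ (i + 1) / (i + 1) ≤ 2 * t ^ (M + 1) :=
    fun M => by
      have h := abs_le.1 (abs_log_sub_add_sum_range_le (x := t)
        (by rw [abs_of_nonneg ht0]; linarith) M)
      rw [abs_of_nonneg ht0] at h
      have h2 : t ^ (M + 1) / (1 - t) ≤ 2 * t ^ (M + 1) := by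
        rw [div_le_iff₀ (by linarith)]
        nlinarith [pow_nonneg ht0 (M + 1)]
      linarith [h.1]
  have hT : tailTerm x p = -log (1 - t) - ∑ i ∈ range K, t ^ (i + 1) / (i + 1) := by
    rw [tailTerm, hK, ht]
  refine ⟨fun h2x => ?_, fun hx2 => ?_⟩
  · have hK2 : 2 ≤ K := hK ▸ Nat.le_log_of_pow_le hp.one_lt (Nat.le_floor (by exact_mod_cast h2x))
    have hlt : x < (p : ℝ) ^ (K + 1) := by
      refine (Nat.lt_floor_add_one x).trans_le ?_
      rw [hK]
      exact_mod_cast Nat.lt_pow_succ_log_self hp.one_lt ⌊x⌋₊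
    have hb := hgen K
    rw [← hT, ht, inv_pow, ← div_eq_mul_inv] at hb
    exact ⟨hb.trans (div_le_div_of_nonneg_left two_pos.le hx0 hlt.le),
      hb.trans (div_le_div_of_nonneg_left two_pos.le (by positivity)
        (pow_le_pow_right₀ (by exact_mod_cast hp.one_le) (by omega)))⟩
  · have hK1 : K = 1 := by
      refine le_antisymm ?_ (hK ▸ Nat.le_log_of_pow_le hp.one_lt (by
        rw [pow_one]; exact Nat.le_floor hpx))
      have : Nat.log p ⌊x⌋₊ < 2 := Nat.log_lt_of_lt_pow (Nat.floor_pos.2 (by linarith)).ne'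
        ((Nat.floor_lt hx0.le).2 (by exact_mod_cast hx2))
      omega
    have hb := hgen 2
    rw [hT, hK1]
    simp only [sum_range_succ, sum_range_zero] at hb ⊢
    have e : 2 / (p : ℝ) ^ 3 = 2 * t ^ 3 := by rw [ht, inv_pow]; ring
    have e2 : ((p : ℝ) ^ 2)⁻¹ = t ^ 2 := by rw [ht, inv_pow]
    rw [e, e2]
    norm_num at hb ⊢
    linarith

theorem sum_excess_le {x : ℝ} (hx : 4 ≤ x) :
    ∑ p ∈ primesUpTo ⌊x⌋₊, excess x p ≤ 4 / x := by
  have hm0 : ⌊x / 2⌋₊ ≠ 0 := (Nat.floor_pos.2 (by linarith)).ne'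
  calc ∑ p ∈ primesUpTo ⌊x⌋₊, excess x p
      = ∑ p ∈ (primesUpTo ⌊x⌋₊).filter (fun p : ℕ => x / 2 < p), ((p : ℝ) ^ 2)⁻¹ := by
        rw [sum_filter]; rfl
    _ ≤ ∑ p ∈ Ioc ⌊x / 2⌋₊ ⌊x⌋₊, ((p : ℝ) ^ 2)⁻¹ := by
        refine sum_le_sum_of_subset_of_nonneg (fun p hp => ?_) fun p _ _ => by positivity
        obtain ⟨h1, h2⟩ := mem_filter.1 hp
        exact mem_Ioc.2 ⟨(Nat.floor_lt (by linarith)).2 h2, (mem_primesUpTo.1 h1).2⟩
    _ ≤ (⌊x / 2⌋₊ : ℝ)⁻¹ - (⌊x⌋₊ : ℝ)⁻¹ :=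
        sum_Ioc_inv_sq_le_sub hm0 (Nat.floor_mono (by linarith))
    _ ≤ 4 / x := by
        have h5 : (0 : ℝ) ≤ (⌊x⌋₊ : ℝ)⁻¹ := by positivity
        have h6 : (⌊x / 2⌋₊ : ℝ)⁻¹ ≤ 4 / x := by
          rw [← one_div, div_le_div_iff₀ (Nat.cast_pos.2 (Nat.pos_of_ne_zero hm0))
            (by linarith)]
          linarith [Nat.lt_floor_add_one (x / 2)]
        linarith

theorem eventually_sum_le : ∀ᶠ x in atTop,
    ∑ p ∈ primesUpTo ⌊x⌋₊, (tailTerm x p - saving x p + excess x p) ≤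
      -(3 / 2) / (√x * log x) := by
  have hlog : ∀ᶠ x : ℝ in atTop, log x ≤ 1 / 1000 * x ^ (1 / 10 : ℝ) := by
    filter_upwards [(isLittleO_log_rpow_atTop (show (0 : ℝ) < 1 / 10 by norm_num)).def
      (show (0 : ℝ) < 1 / 1000 by norm_num), eventually_ge_atTop (1 : ℝ)] with x hx hx1
    rw [norm_of_nonneg (log_nonneg hx1), norm_of_nonneg (rpow_nonneg (by linarith) _)] at hx
    exact hx
  have hθ := eventually_theta_near (show (0 : ℝ) < 1 / 1000 by norm_num)
  have hc : Tendsto (fun x : ℝ => √2 * √x) atTop atTop :=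
    tendsto_sqrt_atTop.const_mul_atTop (by positivity)
  filter_upwards [hlog, tendsto_sqrt_atTop.eventually hθ, hc.eventually hθ,
    hc.eventually eventually_block, tendsto_log_atTop.eventually_ge_atTop 100000,
    eventually_ge_atTop (40000 : ℝ)] with x hlx hθ1 hθ2 hblk hL hx
  have hx0 : 0 < x := by linarith
  obtain ⟨L, hLd⟩ : ∃ L, L = log x := ⟨_, rfl⟩
  rw [← hLd] at hlx hL ⊢
  obtain ⟨s, hs⟩ : ∃ s, s = √x := ⟨_, rfl⟩
  rw [← hs] at hθ1 hθ2 hblk ⊢
  have hs0 : 0 < s := hs ▸ sqrt_pos.2 hx0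
  have hss : s * s = x := hs ▸ mul_self_sqrt hx0.le
  have hs200 : 200 ≤ s := by
    rw [hs, le_sqrt (by norm_num) hx0.le]; linarith
  obtain ⟨c, hc2⟩ : ∃ c : ℝ, c = √2 := ⟨_, rfl⟩
  rw [← hc2] at hθ2 hblk
  have hc0 : 0 < c := hc2 ▸ sqrt_pos.2 two_pos
  have hcc : c * c = 2 := hc2 ▸ mul_self_sqrt two_pos.le
  have hc14 : c ≤ 14143 / 10000 := by nlinarith
  have hc1 : 1 ≤ c := by nlinarith
  obtain ⟨a, ha⟩ : ∃ a, a = c * s := ⟨_, rfl⟩
  rw [← ha] at hθ2 hblk
  obtain ⟨b, hb⟩ : ∃ b, b = (11 / 10 : ℝ) ^ 50 * a := ⟨_, rfl⟩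
  rw [← hb] at hblk
  have hsa : s ≤ a := ha ▸ le_mul_of_one_le_left hs0.le hc1
  have haa : a * a = 2 * x := by rw [ha, ← hss, ← hcc]; ring
  have hab : a ≤ b := hb ▸ le_mul_of_one_le_left (by linarith) (one_le_pow₀ (by norm_num))
  have hbx : b ≤ x := by
    rw [hb, ha, ← hss]
    calc (11 / 10 : ℝ) ^ 50 * (c * s) = ((11 / 10 : ℝ) ^ 50 * c) * s := by ring
      _ ≤ s * s := by
          refine mul_le_mul_of_nonneg_right ?_ hs0.le
          calc (11 / 10 : ℝ) ^ 50 * c ≤ (11 / 10 : ℝ) ^ 50 * (14143 / 10000) := by gcongr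
            _ ≤ 200 := by norm_num
            _ ≤ s := hs200
  have hla : log a = log 2 / 2 + L / 2 := by
    have h2 := congrArg log haa
    rw [log_mul (by linarith) (by linarith), log_mul two_ne_zero hx0.ne', ← hLd] at h2
    linarith
  have hlb : log b ≤ 501 / 1000 * L := by
    rw [hb, log_mul (by positivity) (by linarith), log_pow, hla]
    have h1 := log_le_sub_one_of_pos (show (0 : ℝ) < 11 / 10 by norm_num)
    have h2 := log_two_lt_d9
    push_cast
    linarith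
  obtain ⟨w, hw⟩ : ∃ w, w = x ^ (2 / 5 : ℝ) := ⟨_, rfl⟩
  have hws : w ≤ s := by
    rw [hw, hs, sqrt_eq_rpow]
    exact rpow_le_rpow_of_exponent_le (by linarith) (by norm_num)
  have hw2 : 2 ≤ w := by
    rw [hw]
    have h1 : (32 : ℝ) ^ (2 / 5 : ℝ) ≤ x ^ (2 / 5 : ℝ) :=
      rpow_le_rpow (by norm_num) (by linarith) (by norm_num)
    have h2 : (32 : ℝ) ^ (2 / 5 : ℝ) = 4 := by
      rw [show (32 : ℝ) = 2 ^ (5 : ℝ) by norm_num, ← rpow_mul two_pos.le]
      norm_num
    linarith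
  have hsx : s ≤ x / 2 := by nlinarith
  -- pointwise bounds in three ranges
  have hL0 : 0 < L := by linarith
  have hmem : ∀ p ∈ primesUpTo ⌊x⌋₊, p.Prime ∧ (p : ℝ) ≤ x := fun p hp =>
    ⟨(mem_primesUpTo.1 hp).1,
      (Nat.cast_le.2 (mem_primesUpTo.1 hp).2).trans (Nat.floor_le hx0.le)⟩
  have hA : ∀ p ∈ primesUpTo ⌊x⌋₊, (p : ℝ) ≤ s →
      tailTerm x p - saving x p + excess x p ≤ smallTerm x w p - weight x p := by
    intro p hp hps
    obtain ⟨hpr, hpx⟩ := hmem p hp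
    have hp0 : (0 : ℝ) < p := Nat.cast_pos.2 hpr.pos
    have hp2x : (p : ℝ) ^ 2 ≤ x := by rw [← hss, sq]; exact mul_le_mul hps hps hp0.le hs0.le
    obtain ⟨h1, h2⟩ := (tailTerm_bounds (by linarith) hpr hpx).1 hp2x
    have hsav : saving x p = weight x p := by
      refine min_eq_right ?_
      rw [weight, ← hLd, ← one_div, div_le_div_iff₀ (by positivity) (by positivity), one_mul,
        mul_comm (log _), mul_comm x L]
      calc (p : ℝ) ^ 2 * log (p : ℝ) ≤ x * L := mul_le_mul hp2x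
            (hLd ▸ log_le_log hp0 hpx) (log_natCast_nonneg p) hx0.le
        _ = L * x := mul_comm _ _
    rw [hsav, excess, if_neg (not_lt.2 (hps.trans hsx)), add_zero, smallTerm]
    split_ifs <;> linarith
  have hlog_half : ∀ p : ℕ, s < p → L / 2 ≤ log (p : ℝ) := fun p hp => by
    have h1 := log_le_log hs0 hp.le
    rw [hs, log_sqrt hx0.le, ← hLd] at h1
    exact h1
  have hB : ∀ p ∈ primesUpTo ⌊x⌋₊, s < p → (p : ℝ) ≤ a →
      tailTerm x p - saving x p + excess x p ≤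
        smallTerm x w p + 1 / 1000 * weight x p + excess x p := by
    intro p hp hps hpa
    obtain ⟨hpr, hpx⟩ := hmem p hp
    have hp0 : (0 : ℝ) < p := Nat.cast_pos.2 hpr.pos
    have hxp : x < (p : ℝ) ^ 2 := by
      rw [← hss, sq]; exact mul_lt_mul'' hps hps hs0.le hs0.le
    have hp2x : (p : ℝ) ^ 2 ≤ 2 * x := by
      rw [← haa, sq]; exact mul_le_mul hpa hpa hp0.le (hp0.le.trans hpa)
    have h1 := (tailTerm_bounds (by linarith) hpr hpx).2 hxp
    have h2 : ((p : ℝ) ^ 2)⁻¹ / 2 ≤ weight x p := by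
      refine le_trans (div_le_div_of_nonneg_right (inv_anti₀ hx0 hxp.le) two_pos.le) ?_
      rw [weight, ← hLd, inv_eq_one_div, div_div, div_le_div_iff₀ (by positivity) (by positivity)]
      nlinarith [hlog_half p hps]
    have h3 : 999 / 1000 * weight x p ≤ saving x p := by
      refine le_min ?_ (mul_le_of_le_one_left (div_nonneg (log_natCast_nonneg p) (by
        rw [← hLd]; positivity)) (by norm_num))
      refine le_trans ?_ (inv_anti₀ (by positivity) hp2x)
      have hlpa : log (p : ℝ) ≤ log 2 / 2 + L / 2 := hla ▸ log_le_log hp0 hpa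
      have := log_two_lt_d9
      rw [weight, ← hLd, ← mul_div_assoc, inv_eq_one_div,
        div_le_div_iff₀ (by positivity) (by positivity)]
      nlinarith
    rw [smallTerm, if_neg (not_le.2 (hws.trans_lt hps))]
    linarith
  have hC : ∀ p ∈ primesUpTo ⌊x⌋₊, a < p →
      tailTerm x p - saving x p + excess x p ≤
        smallTerm x w p - ((p : ℝ) ^ 2)⁻¹ / 2 + excess x p := by
    intro p hp hpa
    obtain ⟨hpr, hpx⟩ := hmem p hp
    have hps : s < p := hsa.trans_lt hpa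
    have hp0 : (0 : ℝ) < p := Nat.cast_pos.2 hpr.pos
    have hxp : x < (p : ℝ) ^ 2 := by
      rw [← hss, sq]; exact mul_lt_mul'' hps hps hs0.le hs0.le
    have h1 := (tailTerm_bounds (by linarith) hpr hpx).2 hxp
    have hsav : saving x p = ((p : ℝ) ^ 2)⁻¹ := by
      refine min_eq_left ?_
      have h2 : 2 * x ≤ (p : ℝ) ^ 2 := by
        rw [← haa, sq]; exact mul_le_mul hpa.le hpa.le (by linarith) hp0.le
      refine le_trans (inv_anti₀ (by positivity) h2) ?_
      rw [weight, ← hLd, inv_eq_one_div, div_le_div_iff₀ (by positivity) (by positivity)]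
      nlinarith [hlog_half p hps]
    rw [hsav, smallTerm, if_neg (not_le.2 (hws.trans_lt hps))]
    linarith
  -- summation
  have hpoint : ∀ p ∈ primesUpTo ⌊x⌋₊, tailTerm x p - saving x p + excess x p ≤
      smallTerm x w p + excess x p +
        ((if (p : ℝ) ≤ s then -weight x p else 0) +
          (if ¬(p : ℝ) ≤ s ∧ (p : ℝ) ≤ a then 1 / 1000 * weight x p else 0) +
          (if ¬(p : ℝ) ≤ a ∧ (p : ℝ) ≤ b then -(((p : ℝ) ^ 2)⁻¹ / 2) else 0)) := by
    intro p hp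
    have he : 0 ≤ excess x p := by
      rw [excess]; split_ifs
      exacts [by positivity, le_rfl]
    by_cases h1 : (p : ℝ) ≤ s
    · rw [if_pos h1, if_neg (fun h => h.1 h1), if_neg (fun h => h.1 (h1.trans hsa))]
      linarith [hA p hp h1]
    by_cases h2 : (p : ℝ) ≤ a
    · rw [if_neg h1, if_pos ⟨h1, h2⟩, if_neg (fun h => h.1 h2)]
      linarith [hB p hp (not_le.1 h1) h2]
    · rw [if_neg h1, if_neg (fun h => h2 h.2)]
      have hp2 : (0 : ℝ) ≤ ((p : ℝ) ^ 2)⁻¹ := by positivity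
      split_ifs <;> linarith [hC p hp (not_le.1 h2)]
  refine (sum_le_sum hpoint).trans ?_
  simp only [sum_add_distrib, ← sum_filter]
  have e1 : ∑ p ∈ (primesUpTo ⌊x⌋₊).filter (fun p : ℕ => (p : ℝ) ≤ s), -weight x p =
      -(θ s / (x * L)) := by
    rw [filter_le_eq hs0.le (by linarith), sum_neg_distrib, theta_eq_sum, sum_div, hLd]
    rfl
  have e2 : ∑ p ∈ (primesUpTo ⌊x⌋₊).filter (fun p : ℕ => ¬(p : ℝ) ≤ s ∧ (p : ℝ) ≤ a),
      1 / 1000 * weight x p = 1 / 1000 * ((θ a - θ s) / (x * L)) := by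
    rw [← sum_log_between hs0.le hsa, sum_div, mul_sum, hLd]
    refine sum_congr ?_ fun _ _ => rfl
    rw [← filter_le_eq (by linarith : 0 ≤ a) (hab.trans hbx), filter_filter]
    exact filter_congr fun p _ => and_comm
  have e3 : ∑ p ∈ (primesUpTo ⌊x⌋₊).filter (fun p : ℕ => ¬(p : ℝ) ≤ a ∧ (p : ℝ) ≤ b),
      -(((p : ℝ) ^ 2)⁻¹ / 2) ≤ -(89 / 100 / a / (1002 / 1000 * L)) := by
    rw [sum_neg_distrib, neg_le_neg_iff]
    refine le_trans (div_le_div_of_nonneg_right hblk (by positivity)) ?_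
    rw [sum_div]
    refine le_of_le_of_eq (sum_le_sum fun p hp => ?_) (sum_congr ?_ fun _ _ => rfl)
    · obtain ⟨h1, h2⟩ := mem_filter.1 hp
      have hp0 : (0 : ℝ) < p := lt_of_le_of_lt (by linarith) (not_le.1 h2)
      have hlp : log (p : ℝ) ≤ 501 / 1000 * L := (log_le_log hp0
        ((Nat.cast_le.2 (mem_primesUpTo.1 h1).2).trans (Nat.floor_le (by linarith)))).trans hlb
      rw [div_div, inv_eq_one_div, div_div,
        div_le_div_iff₀ (by positivity) (by positivity)]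
      nlinarith [mul_nonneg (sq_nonneg (p : ℝ)) hL0.le,
        mul_le_mul_of_nonneg_left hlp (sq_nonneg (p : ℝ))]
    · rw [← filter_le_eq (by linarith : 0 ≤ b) hbx, filter_filter]
      exact filter_congr fun p _ => and_comm
  rw [e1, e2]
  have hsm := sum_smallTerm_le hx0 hw2 (hws.trans (by linarith))
  have hex := sum_excess_le (show 4 ≤ x by linarith)
  obtain ⟨u, hu⟩ : ∃ u, u = 1 / (s * L) := ⟨_, rfl⟩
  have hu0 : 0 < u := hu ▸ by positivity
  have hsmall : 2 * w / x + 4 / w ^ 2 + 4 / x ≤ 1 / 100 * u := by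
    have h1 : w ≤ w * w := le_mul_of_one_le_left (by linarith) (by linarith)
    obtain ⟨v, hv⟩ : ∃ v, v = x ^ (1 / 10 : ℝ) := ⟨_, rfl⟩
    rw [← hv] at hlx
    have hv0 : 0 < v := hv ▸ rpow_pos_of_pos hx0 _
    have hwv : s = w * v := by
      rw [hw, hv, hs, ← rpow_add hx0, sqrt_eq_rpow]
      norm_num
    have hxw : x = w ^ 2 * v ^ 2 := by rw [← hss, hwv]; ring
    have hv1 : 1 ≤ v := hv ▸ one_le_rpow (by linarith) (by norm_num)
    have hvw : v ^ 2 ≤ w := by
      rw [hv, hw, ← rpow_natCast, ← rpow_mul hx0.le]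
      exact rpow_le_rpow_of_exponent_le (by linarith) (by norm_num)
    rw [hu, hwv, hxw]
    have hsum : 2 * w / (w ^ 2 * v ^ 2) + 4 / w ^ 2 + 4 / (w ^ 2 * v ^ 2) ≤
        10 / (w * v ^ 2) := by
      have h2 : 4 / w ^ 2 ≤ 4 / (w * v ^ 2) :=
        div_le_div_of_nonneg_left (by norm_num) (by positivity) (by nlinarith)
      have h3 : 4 / (w ^ 2 * v ^ 2) ≤ 4 / (w * v ^ 2) :=
        div_le_div_of_nonneg_left (by norm_num) (by positivity) (by rw [sq w]; gcongr)
      have h4 : 2 * w / (w ^ 2 * v ^ 2) = 2 / (w * v ^ 2) := by field_simp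
      have h5 : (10 : ℝ) / (w * v ^ 2) = 2 / (w * v ^ 2) + 4 / (w * v ^ 2) + 4 / (w * v ^ 2) := by
        ring
      linarith
    refine hsum.trans ?_
    rw [mul_one_div, div_le_div_iff₀ (by positivity) (by positivity)]
    nlinarith [mul_le_mul_of_nonneg_left hlx (show 0 ≤ w * v by positivity)]
  have hts := abs_le.1 hθ1
  have hta := abs_le.1 hθ2
  have hmid : -(θ s / (x * L)) + 1 / 1000 * ((θ a - θ s) / (x * L)) ≤ -(99 / 100) * u := by
    rw [show -(θ s / (x * L)) + 1 / 1000 * ((θ a - θ s) / (x * L)) =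
      (1 / 1000 * θ a - 1001 / 1000 * θ s) / (x * L) by ring,
      show -(99 / 100) * u = (-(99 / 100) * s) / (x * L) by rw [hu, ← hss]; field_simp]
    refine div_le_div_of_nonneg_right ?_ (by positivity)
    have : a ≤ 14143 / 10000 * s := ha ▸ mul_le_mul_of_nonneg_right hc14 hs0.le
    linarith [hts.1, hta.2]
  have hhigh : 62 / 100 * u ≤ 89 / 100 / a / (1002 / 1000 * L) := by
    rw [show 89 / 100 / a / (1002 / 1000 * L) = 89 / 100 / (1002 / 1000 * c) * u by
      rw [hu, ha]; field_simp]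
    refine mul_le_mul_of_nonneg_right ?_ hu0.le
    rw [le_div_iff₀ (by positivity)]
    linarith
  rw [show -(3 / 2) / (s * L) = -(3 / 2) * u by rw [hu]; ring]
  linarith

theorem eventually_psi_sub_theta_le : ∀ᶠ x in atTop, ψ x - θ x ≤ 51 / 50 * √x := by
  have hψ : ∀ᶠ y in atTop, ψ y ≤ 1001 / 1000 * y := by
    filter_upwards [Metric.tendsto_nhds.1 FA.Nicolas.tendsto_psi_sub_div (1 / 1000)
      (by norm_num), eventually_gt_atTop (0 : ℝ)] with y hy hy0
    rw [dist_eq_norm, sub_zero, norm_eq_abs, abs_lt, div_lt_iff₀ hy0] at hy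
    linarith [hy.2]
  obtain ⟨Y, hY⟩ := eventually_atTop.1 hψ
  have h6 := (tendsto_rpow_atTop (show (0 : ℝ) < 1 / 6 by norm_num)).eventually_ge_atTop
    (400 * (log 4 + 4))
  filter_upwards [h6, tendsto_sqrt_atTop.eventually_ge_atTop Y,
    eventually_ge_atTop (1 : ℝ)] with x h6 hsY hx1
  refine (Chebyshev.psi_sub_theta_le_psi_add_psi_add_psi x).trans ?_
  have hs := hY _ hsY
  have e2 : x ^ (2 : ℝ)⁻¹ = √x := by rw [sqrt_eq_rpow]; norm_num
  rw [e2]
  have hsmall : ∀ r : ℝ, r ≤ 1 / 3 → ψ (x ^ r) ≤ 1 / 400 * √x := by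
    intro r hr
    refine (Chebyshev.psi_le_const_mul_self (rpow_nonneg (by linarith) _)).trans ?_
    have h1 : x ^ r ≤ x ^ (1 / 3 : ℝ) := rpow_le_rpow_of_exponent_le hx1 hr
    have h2 : x ^ (1 / 3 : ℝ) * x ^ (1 / 6 : ℝ) = √x := by
      rw [← rpow_add (by linarith), sqrt_eq_rpow]; norm_num
    have h3 : 0 ≤ x ^ (1 / 3 : ℝ) := rpow_nonneg (by linarith) _
    have hc : 0 ≤ log 4 + 4 := by positivity
    calc (log 4 + 4) * x ^ r ≤ (log 4 + 4) * x ^ (1 / 3 : ℝ) :=
          mul_le_mul_of_nonneg_left h1 hc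
      _ ≤ 1 / 400 * (x ^ (1 / 3 : ℝ) * x ^ (1 / 6 : ℝ)) := by
          nlinarith [mul_le_mul_of_nonneg_left h6 h3]
      _ = _ := by rw [h2]
  linarith [hsmall (3 : ℝ)⁻¹ (by norm_num), hsmall (5 : ℝ)⁻¹ (by norm_num), sqrt_nonneg x]

/-- **Robin's inequality for large `n` under the Riemann hypothesis.** -/
theorem eventually_robin (hRH : RiemannHypothesis) : ∀ᶠ n : ℕ in atTop,
    (∑ d ∈ n.divisors, (d : ℝ)) <
      Real.exp eulerMascheroniConstant * n * log (log n) := by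
  obtain ⟨X, hX⟩ := eventually_atTop.1 ((FA.Nicolas.eventually_abs_tailInt_le hRH).and
    (eventually_sum_le.and eventually_psi_sub_theta_le))
  filter_upwards [(tendsto_log_atTop.comp tendsto_natCast_atTop_atTop).eventually_ge_atTop
    (max X 16), eventually_ge_atTop 1] with n hn hn1
  simp only [Function.comp_apply, max_le_iff] at hn
  obtain ⟨x, hxd⟩ : ∃ x, x = log (n : ℝ) := ⟨_, rfl⟩
  rw [← hxd] at hn ⊢
  obtain ⟨hJ, hsum, hψ⟩ := hX x hn.1
  have hn0 : (0 : ℝ) < n := Nat.cast_pos.2 hn1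
  have hle := log_sigma_le (n := n) (by omega) (hxd ▸ hn.2)
  rw [← hxd] at hle
  have hx0 : 0 < x := by linarith [hn.2]
  have hL : 0 < log x := log_pos (by linarith [hn.2])
  have hsplit : ∑ p ∈ primesUpTo ⌊x⌋₊, contrib x p = primeSum x - θ x / (x * log x) +
      (∑ p ∈ primesUpTo ⌊x⌋₊, (tailTerm x p - saving x p + excess x p) -
        (primeSum x - powSum x)) := by
    rw [theta_eq_sum, primeSum, FA.Nicolas.powSum_eq, sum_div, ← sum_sub_distrib,
      ← sum_sub_distrib, ← sum_sub_distrib, ← sum_add_distrib]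
    refine sum_congr rfl fun p _ => ?_
    rw [contrib, tailTerm, weight]
    ring
  have hid := FA.Nicolas.tailInt_eq (show 2 ≤ x by linarith [hn.2])
  have hψ' : (ψ x - θ x) / (x * log x) ≤ 51 / 50 / (√x * log x) := by
    rw [div_le_div_iff₀ (by positivity) (by positivity)]
    calc (ψ x - θ x) * (√x * log x) ≤ 51 / 50 * √x * (√x * log x) :=
          mul_le_mul_of_nonneg_right hψ (by positivity)
      _ = 51 / 50 * (√x * √x) * log x := by ring
      _ = _ := by rw [mul_self_sqrt hx0.le]; ring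
  have hfin : log ((∑ d ∈ n.divisors, (d : ℝ)) / n) <
      eulerMascheroniConstant + log (log x) := by
    have hu : 0 < 1 / (√x * log x) := by positivity
    have e1 : 1 / log x = x / (x * log x) := by field_simp
    have e2 : (ψ x - x) / (x * log x) + x / (x * log x) - θ x / (x * log x) =
        (ψ x - θ x) / (x * log x) := by ring
    have e3 : 21 / 50 / (√x * log x) + 51 / 50 / (√x * log x) + -(3 / 2) / (√x * log x) =
        -(3 / 50) * (1 / (√x * log x)) := by ring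
    linarith [neg_abs_le (tailInt x)]
  have hσ0 : 0 < ∑ d ∈ n.divisors, (d : ℝ) := sum_pos
    (fun d hd => Nat.cast_pos.2 (Nat.pos_of_mem_divisors hd)) ⟨1, Nat.one_mem_divisors.2 (by omega)⟩
  have h2 := exp_lt_exp.2 hfin
  rw [exp_log (div_pos hσ0 hn0), exp_add, exp_log hL, div_lt_iff₀ hn0] at h2
  linarith

end FA.Robin
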